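import Mathlib

/-!
# Program PJ (statement S27), strand F: the exit arithmetic (Mathlib only)

For an abelian group `A` and `tors A n := (Submodule.torsionBy ℤ A (n : ℤ)).toAddSubgroup`
(the literal of `AlgebraicCurve.Pic0.torsion`):

* `card_tors_succ`, `card_tors_pow` : if `A` is `l`-divisible then
  `0 → A[l] → A[l ^ (j + 1)] → A[l ^ j] → 0` is exact, hence `card A[l ^ j] = (card A[l]) ^ j`
  (as `Nat.card`; no finiteness is needed);
* `eq_of_pow_window` : two natural numbers whose powers stay within constant factors are equal;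
* `card_tors_of_halves` : if moreover, for all large `j`, every finite subset of `A[l ^ j]` has
  at most `C * (l ^ j) ^ (2 * g)` elements and some finite subset of `A[l ^ j]` has at least
  `c * (l ^ j) ^ (2 * g)` elements (`0 < c`), then `card A[l ^ k] = l ^ (2 * g * k)` for all `k`;
  finiteness of `A[l ^ j]` is produced from the upper half;
* `card_tors_of_bounds` : the same with the lower half in the shape
  `(l ^ j) ^ (2 * g) ≤ C * card T` and no thresholds;
* `card_tors_of_bounds_nat` : the same with natural constants.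
-/

set_option autoImplicit false

namespace Fermat.Agent.S27.F.Exit

section Arithmetic

variable {A : Type*} [AddCommGroup A]

/-- The `n`-torsion subgroup of an abelian group, in the literal of `Pic0.torsion`. -/
abbrev tors (A : Type*) [AddCommGroup A] (n : ℕ) : AddSubgroup A :=
  (Submodule.torsionBy ℤ A (n : ℤ)).toAddSubgroup

theorem mem_tors {n : ℕ} {x : A} : x ∈ tors A n ↔ n • x = 0 := by
  show x ∈ Submodule.torsionBy ℤ A (n : ℤ) ↔ _
  rw [Submodule.mem_torsionBy_iff, natCast_zsmul]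

/-- Multiplicativity step: if `A` is `l`-divisible then
`card A[l ^ (j + 1)] = card A[l ^ j] * card A[l]` (as `Nat.card`, no finiteness needed). -/
theorem card_tors_succ (l : ℕ) (hdiv : ∀ x : A, ∃ y : A, l • y = x) (j : ℕ) :
    Nat.card (tors A (l ^ (j + 1))) = Nat.card (tors A (l ^ j)) * Nat.card (tors A l) := by
  have hmem : ∀ x : A, x ∈ tors A (l ^ (j + 1)) → l • x ∈ tors A (l ^ j) := by
    intro x hx
    rw [mem_tors] at hx ⊢
    rw [← mul_nsmul, ← pow_succ']
    exact hx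
  let φ : tors A (l ^ (j + 1)) →+ tors A (l ^ j) :=
    { toFun := fun x => ⟨l • (x : A), hmem x x.2⟩
      map_zero' := by ext; simp
      map_add' := fun x y => by ext; simp [smul_add] }
  have hφ : Function.Surjective φ := by
    rintro ⟨y, hy⟩
    obtain ⟨x, hx⟩ := hdiv y
    refine ⟨⟨x, ?_⟩, Subtype.ext hx⟩
    rw [mem_tors] at hy ⊢
    rw [pow_succ, mul_nsmul', hx]
    exact hy
  have hle : tors A l ≤ tors A (l ^ (j + 1)) := by
    intro x hx
    rw [mem_tors] at hx ⊢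
    rw [pow_succ, mul_nsmul', hx, smul_zero]
  have hker : φ.ker = (tors A l).addSubgroupOf (tors A (l ^ (j + 1))) := by
    ext x
    rw [AddMonoidHom.mem_ker, AddSubgroup.mem_addSubgroupOf, mem_tors]
    constructor
    · intro h
      exact congrArg Subtype.val h
    · intro h
      exact Subtype.ext h
  rw [AddSubgroup.card_eq_card_quotient_mul_card_addSubgroup φ.ker,
    Nat.card_congr (QuotientAddGroup.quotientKerEquivOfSurjective φ hφ).toEquiv, hker,
    Nat.card_congr (AddSubgroup.addSubgroupOfEquivOfLe hle).toEquiv]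

/-- If `A` is `l`-divisible then `card A[l ^ j] = (card A[l]) ^ j`. -/
theorem card_tors_pow (l : ℕ) (hdiv : ∀ x : A, ∃ y : A, l • y = x) (j : ℕ) :
    Nat.card (tors A (l ^ j)) = Nat.card (tors A l) ^ j := by
  induction j with
  | zero =>
    rw [pow_zero, pow_zero]
    have hz : ∀ a : tors A 1, (a : A) = 0 := fun a => by
      have ha := mem_tors.1 a.2
      simpa using ha
    have hsub : Subsingleton (tors A 1) := ⟨fun a b => Subtype.ext (by rw [hz a, hz b])⟩
    exact Nat.card_of_subsingleton (0 : tors A 1)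
  | succ j ih => rw [card_tors_succ l hdiv j, ih, pow_succ]

/-- Two natural numbers whose powers stay within a constant factor of each other are equal. -/
theorem eq_of_pow_window {N L : ℕ} (hL : 0 < L) {c C : ℝ} (hc : 0 < c) (j₀ : ℕ)
    (h : ∀ j : ℕ, j₀ ≤ j → c * (L : ℝ) ^ j ≤ (N : ℝ) ^ j ∧ (N : ℝ) ^ j ≤ C * (L : ℝ) ^ j) :
    N = L := by
  have hL' : (0 : ℝ) < L := by exact_mod_cast hL
  rcases lt_trichotomy N L with hlt | heq | hgt
  · exfalso
    rcases Nat.eq_zero_or_pos N with h0 | hN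
    · have h1 := (h (j₀ + 1) (by omega)).1
      rw [h0, Nat.cast_zero, zero_pow (by omega)] at h1
      have h2 : 0 < c * (L : ℝ) ^ (j₀ + 1) := by positivity
      linarith
    · have hN' : (0 : ℝ) < N := by exact_mod_cast hN
      have hr : 1 < (L : ℝ) / N := by
        rw [one_lt_div hN']
        exact_mod_cast hlt
      obtain ⟨m, hm⟩ := pow_unbounded_of_one_lt (1 / c) hr
      have hj := (h (j₀ + m) (by omega)).1
      have h1 : ((L : ℝ) / N) ^ m ≤ ((L : ℝ) / N) ^ (j₀ + m) :=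
        pow_le_pow_right₀ hr.le (by omega)
      have h2 : c * ((L : ℝ) / N) ^ (j₀ + m) ≤ 1 := by
        rw [div_pow, ← mul_div_assoc, div_le_one (by positivity)]
        exact hj
      have h3 : 1 / c < ((L : ℝ) / N) ^ (j₀ + m) := lt_of_lt_of_le hm h1
      rw [div_lt_iff₀ hc] at h3
      linarith
  · exact heq
  · exfalso
    have hr : 1 < (N : ℝ) / L := by
      rw [one_lt_div hL']
      exact_mod_cast hgt
    obtain ⟨m, hm⟩ := pow_unbounded_of_one_lt C hr
    have hj := (h (j₀ + m) (by omega)).2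
    have h1 : ((N : ℝ) / L) ^ m ≤ ((N : ℝ) / L) ^ (j₀ + m) :=
      pow_le_pow_right₀ hr.le (by omega)
    have h2 : ((N : ℝ) / L) ^ (j₀ + m) ≤ C := by
      rw [div_pow, div_le_iff₀ (by positivity)]
      exact hj
    linarith

/-- **The exit arithmetic.**  Let `A` be an `l`-divisible abelian group such that, for all large
`j`, every finite subset of `A[l ^ j]` has at most `C * (l ^ j) ^ (2 * g)` elements and some
finite subset of `A[l ^ j]` has at least `c * (l ^ j) ^ (2 * g)` elements, `0 < c`.  Then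
`A[l ^ k]` has exactly `l ^ (2 * g * k)` elements for every `k`. -/
theorem card_tors_of_halves (l : ℕ) (hl : 0 < l) (g : ℕ)
    (hdiv : ∀ x : A, ∃ y : A, l • y = x)
    (hU : ∃ (C : ℝ) (j₀ : ℕ), ∀ j : ℕ, j₀ ≤ j → ∀ T : Finset A,
      (∀ x ∈ T, x ∈ tors A (l ^ j)) → (T.card : ℝ) ≤ C * ((l ^ j : ℕ) : ℝ) ^ (2 * g))
    (hL : ∃ (c : ℝ) (j₀ : ℕ), 0 < c ∧ ∀ j : ℕ, j₀ ≤ j → ∃ T : Finset A,
      (∀ x ∈ T, x ∈ tors A (l ^ j)) ∧ c * ((l ^ j : ℕ) : ℝ) ^ (2 * g) ≤ (T.card : ℝ))
    (k : ℕ) : Nat.card (tors A (l ^ k)) = l ^ (2 * g * k) := by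
  classical
  obtain ⟨C, j₁, hC⟩ := hU
  obtain ⟨c, j₂, hc, hcL⟩ := hL
  -- finiteness and the upper bound for `Nat.card`
  have hfin : ∀ j : ℕ, j₁ ≤ j → ((tors A (l ^ j) : AddSubgroup A) : Set A).Finite := by
    intro j hj
    by_contra hinf
    obtain ⟨m, hm⟩ := exists_nat_gt (C * ((l ^ j : ℕ) : ℝ) ^ (2 * g))
    obtain ⟨T, hT, hTm⟩ := Set.Infinite.exists_subset_card_eq hinf m
    have := hC j hj T (fun x hx => hT hx)
    rw [hTm] at this
    linarith
  have hcard : ∀ (j : ℕ) (hj : j₁ ≤ j),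
      Nat.card (tors A (l ^ j)) = (hfin j hj).toFinset.card := by
    intro j hj
    have h1 := Nat.card_coe_set_eq ((tors A (l ^ j) : AddSubgroup A) : Set A)
    rw [Set.ncard_eq_toFinset_card _ (hfin j hj)] at h1
    exact h1
  have hup : ∀ j : ℕ, j₁ ≤ j →
      (Nat.card (tors A (l ^ j)) : ℝ) ≤ C * ((l ^ j : ℕ) : ℝ) ^ (2 * g) := by
    intro j hj
    rw [hcard j hj]
    exact hC j hj _ (fun x hx => (Set.Finite.mem_toFinset _).1 hx)
  have hlow : ∀ j : ℕ, max j₁ j₂ ≤ j →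
      c * ((l ^ j : ℕ) : ℝ) ^ (2 * g) ≤ (Nat.card (tors A (l ^ j)) : ℝ) := by
    intro j hj
    have hj1 : j₁ ≤ j := le_trans (le_max_left _ _) hj
    obtain ⟨T, hT, hTc⟩ := hcL j (le_trans (le_max_right _ _) hj)
    rw [hcard j hj1]
    refine le_trans hTc ?_
    exact_mod_cast Finset.card_le_card (fun x hx => (Set.Finite.mem_toFinset _).2 (hT x hx))
  -- the window for the powers of `N = card A[l]` against `L = l ^ (2 * g)`
  have hpow : ∀ j : ℕ, ((l ^ j : ℕ) : ℝ) ^ (2 * g) = ((l ^ (2 * g) : ℕ) : ℝ) ^ j := by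
    intro j
    push_cast
    rw [← pow_mul, ← pow_mul, mul_comm]
  have hN : Nat.card (tors A l) = l ^ (2 * g) := by
    refine eq_of_pow_window (C := C) (pow_pos hl _) hc (max j₁ j₂) (fun j hj => ?_)
    have hj1 : j₁ ≤ j := le_trans (le_max_left _ _) hj
    have e : ((Nat.card (tors A l) : ℕ) : ℝ) ^ j = (Nat.card (tors A (l ^ j)) : ℝ) := by
      rw [card_tors_pow l hdiv j]
      push_cast
      rfl
    rw [e, ← hpow j]
    exact ⟨hlow j hj, hup j hj1⟩
  rw [card_tors_pow l hdiv k, hN, ← pow_mul]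

end Arithmetic

section Variants

variable {A : Type*} [AddCommGroup A]

/-- The exit arithmetic with real constants, the lower half in the shape
`(l ^ j) ^ (2 * g) ≤ C * card T`, no thresholds. -/
theorem card_tors_of_bounds (l : ℕ) (hl : 0 < l) (g : ℕ)
    (hdiv : ∀ x : A, ∃ y : A, l • y = x)
    (hU : ∃ C : ℝ, ∀ j : ℕ, ∀ T : Finset A,
      (∀ x ∈ T, x ∈ tors A (l ^ j)) → (T.card : ℝ) ≤ C * ((l ^ j : ℕ) : ℝ) ^ (2 * g))
    (hL : ∃ C : ℝ, ∀ j : ℕ, ∃ T : Finset A,
      (∀ x ∈ T, x ∈ tors A (l ^ j)) ∧ ((l ^ j : ℕ) : ℝ) ^ (2 * g) ≤ C * (T.card : ℝ))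
    (k : ℕ) : Nat.card (tors A (l ^ k)) = l ^ (2 * g * k) := by
  obtain ⟨C, hC⟩ := hU
  obtain ⟨C', hC'⟩ := hL
  have hpos : ∀ j : ℕ, (0 : ℝ) < ((l ^ j : ℕ) : ℝ) ^ (2 * g) := fun j => by
    have : (0 : ℝ) < ((l ^ j : ℕ) : ℝ) := by exact_mod_cast pow_pos hl j
    positivity
  have hC'pos : 0 < C' := by
    obtain ⟨T, -, hT⟩ := hC' 0
    by_contra hneg
    have h1 : C' * (T.card : ℝ) ≤ 0 :=
      mul_nonpos_of_nonpos_of_nonneg (not_lt.1 hneg) (Nat.cast_nonneg _)
    linarith [hpos 0]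
  refine card_tors_of_halves l hl g hdiv ⟨C, 0, fun j _ T hT => hC j T hT⟩
    ⟨1 / C', 0, by positivity, fun j _ => ?_⟩ k
  obtain ⟨T, hT, hTc⟩ := hC' j
  refine ⟨T, hT, ?_⟩
  rw [one_div, inv_mul_le_iff₀ hC'pos]
  exact hTc

/-- The exit arithmetic with natural constants. -/
theorem card_tors_of_bounds_nat (l : ℕ) (hl : 0 < l) (g : ℕ)
    (hdiv : ∀ x : A, ∃ y : A, l • y = x)
    (hU : ∃ C : ℕ, ∀ j : ℕ, ∀ T : Finset A,
      (∀ x ∈ T, x ∈ tors A (l ^ j)) → T.card ≤ C * (l ^ j) ^ (2 * g))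
    (hL : ∃ C : ℕ, ∀ j : ℕ, ∃ T : Finset A,
      (∀ x ∈ T, x ∈ tors A (l ^ j)) ∧ (l ^ j) ^ (2 * g) ≤ C * T.card)
    (k : ℕ) : Nat.card (tors A (l ^ k)) = l ^ (2 * g * k) := by
  obtain ⟨C, hC⟩ := hU
  obtain ⟨C', hC'⟩ := hL
  refine card_tors_of_bounds l hl g hdiv ⟨(C : ℝ), fun j T hT => ?_⟩
    ⟨(C' : ℝ), fun j => ?_⟩ k
  · exact_mod_cast hC j T hT
  · obtain ⟨T, hT, hTc⟩ := hC' j
    exact ⟨T, hT, by exact_mod_cast hTc⟩

end Variants

end Fermat.Agent.S27.F.Exit
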