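import Fermat.Agent.S27.Contract
import Fermat.Agent.S27.F.Exit

/-!
# Program PJ (statement S27), strand F: the exit of the contract

`exitAlg` : the hypothesis `ExitAlg K F l` of `Fermat.Agent.S27.result_of_contract` is a theorem
(group theory only): divisibility by `l` and the two finite-set bounds `UpperBound K F l`,
`LowerBound K F l` give `Nat.card (Pic0.torsion K F (l ^ k)) = l ^ (2 * gR K F * k)` for all `k`.

It is `F.Exit.card_tors_of_bounds_nat` for the group `Pic0 K F` with `g := S17.R.gR K F`.
-/

set_option autoImplicit false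

open AlgebraicCurve

namespace Fermat.Agent.S27.F.ExitAlg

/-- **Strand F exit**: the exit arithmetic of the contract. -/
theorem exitAlg (K F : Type*) [Field K] [Field F] [Algebra K F] (l : ℕ) (hl : l.Prime) :
    ExitAlg K F l := by
  intro hdiv hU hL k
  obtain ⟨C, hC⟩ := hU
  obtain ⟨C', hC'⟩ := hL
  have h := Exit.card_tors_of_bounds_nat (A := Pic0 K F) l hl.pos (S17.R.gR K F) hdiv
    ⟨C, fun j T hT => hC j T (fun x hx => Exit.mem_tors.1 (hT x hx))⟩
    ⟨C', fun j => by
      obtain ⟨T, hT, hTc⟩ := hC' j
      exact ⟨T, fun x hx => Exit.mem_tors.2 (hT x hx), hTc⟩⟩ k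
  exact h

end Fermat.Agent.S27.F.ExitAlg
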